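import Fermat.Agent.S56.EC.Main
import Fermat.Agent.S56.TW.Hyp
import Fermat.Agent.CFT.W.Scal
import Fermat.Agent.CFT.W.H2Fin

/-!
# S56 / EC / Top : from `EC.euler_char` (`𝔽_p`, `finrank`) to the final statement `exists_S1_euler_char` (`k`, cardinalities).
-/

set_option autoImplicit false

open ExtCitation Polynomial Module

namespace Fermat.Agent.S56.EC

open Fermat.Agent.CFT (levS levAll decomp Z1 B1 H1 H2 IsSmooth rsRep Qb)
open Fermat.Agent.CFT.Global (SPl)
open Fermat.Agent.S14 (GenCl)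

/-- EC-T1: an intermediate field is determined by its fixing subgroup -/
theorem eq_of_fixingSubgroup_eq {L L' : IntermediateField ℚ Qb}
    (h : ∀ g : GQ, g ∈ L.fixingSubgroup ↔ g ∈ L'.fixingSubgroup) : L = L' := by
  have := Fermat.Agent.CFT.isGalois_Qb
  have h' : L.fixingSubgroup = L'.fixingSubgroup := Subgroup.ext h
  rw [← InfiniteGalois.fixedField_fixingSubgroup L, h', InfiniteGalois.fixedField_fixingSubgroup]

/-- EC-T2: `chiK = 1 ⇒ cycloChar = 1` -/
theorem cycloChar_eq_one_of_chiK {p : ℕ} [Fact p.Prime] {k : Type} [Field k] [CharP k p] {g : GQ}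
    (h : chiK p k g = 1) : cycloChar p g = 1 := by
  have h1 : Function.Injective
      (Units.map ((ZMod.castHom (dvd_refl p) k : ZMod p →+* k) : ZMod p →* k)) :=
    Units.map_injective (ZMod.castHom (dvd_refl p) k).injective
  apply h1
  rw [map_one]
  exact h

/-- EC-T4: `Nat.card = p ^ finrank` -/
theorem card_eq_pow_finrank' {p : ℕ} [Fact p.Prime] {V : Type} [AddCommGroup V]
    [Module (ZMod p) V] [Module.Finite (ZMod p) V] : Nat.card V = p ^ finrank (ZMod p) V := by
  rw [Module.natCard_eq_pow_finrank (K := ZMod p), Nat.card_zmod]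

/-- EC-T3: cardinality of the `-1`-eigenspace of an involution (`p ≠ 2`) -/
theorem card_neg_eigenspace {p : ℕ} [Fact p.Prime] (hp2 : p ≠ 2) {V : Type} [AddCommGroup V]
    [Module (ZMod p) V] [Module.Finite (ZMod p) V] (f : V →ₗ[ZMod p] V) (hf : ∀ v, f (f v) = v) :
    Nat.card {w : V // f w = -w} * p ^ finrank (ZMod p) ↥(LinearMap.ker (f - 1)) =
      p ^ finrank (ZMod p) V := by
  have h2 : (2 : ZMod p) ≠ 0 := by
    intro h
    have h1 : ((2 : ℕ) : ZMod p) = 0 := by exact_mod_cast h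
    rw [ZMod.natCast_eq_zero_iff] at h1
    exact hp2 ((Nat.prime_dvd_prime_iff_eq Fact.out Nat.prime_two).1 h1)
  have hr : LinearMap.range (f + 1) = LinearMap.ker (f - 1) := by
    ext v
    simp only [LinearMap.mem_range, LinearMap.mem_ker, LinearMap.add_apply, LinearMap.sub_apply,
      Module.End.one_apply]
    constructor
    · rintro ⟨y, rfl⟩
      rw [map_add, hf]
      abel
    · intro hv
      refine ⟨(2 : ZMod p)⁻¹ • v, ?_⟩
      rw [map_smul, sub_eq_zero.1 hv, ← add_smul, ← two_mul, mul_inv_cancel₀ h2, one_smul]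
  have hk : Nat.card {w : V // f w = -w} = p ^ finrank (ZMod p) ↥(LinearMap.ker (f + 1)) := by
    rw [← card_eq_pow_finrank']
    refine Nat.card_congr (Equiv.subtypeEquivRight fun w => ?_)
    simp only [LinearMap.mem_ker, LinearMap.add_apply, Module.End.one_apply]
    exact eq_neg_iff_add_eq_zero
  rw [hk, ← pow_add, ← hr, add_comm, LinearMap.finrank_range_add_finrank_ker]

/-- **(EC)**, final form. -/
theorem top_proof {p : ℕ} [Fact p.Prime] (hp2 : p ≠ 2) {k : Type} [Field k] [Finite k]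
    [CharP k p] {rbar : GQ →* M2 k} (h : RbarHyp p rbar) :
    ∃ (S₁ : Finset Nat.Primes) (c : GQ), c * c = 1 ∧ cycloChar p c = -1 ∧
      ∀ T : Finset Nat.Primes, S₁ ⊆ T → pPrime p ∈ T → UnramOutside rbar T →
        Nat.card (H2 (levS T) (adTw p rbar)) * Nat.card {w : sl2 k // adTw p rbar c w = -w} ≤
          Nat.card (H1 (levS T) (adTw p rbar)) := by
  classical
  have hcc : cycloChar p complexConjugation = -1 :=
    Units.ext (by
      rw [Units.val_neg, Units.val_one]
      exact Fermat.Agent.GAL.PC.cycloChar_complexConjugation p)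
  by_cases hT0 : ∃ T₀ : Finset Nat.Primes, UnramOutside rbar T₀
  swap
  · exact ⟨∅, complexConjugation, complexConjugation_mul_self, hcc,
      fun T _ _ hur => absurd ⟨T, hur⟩ hT0⟩
  obtain ⟨T₀, hT₀⟩ := hT0
  obtain ⟨rG, hrGval⟩ : ∃ rG : GQ →* GL (Fin 2) k, ∀ g, ((rG g : GL (Fin 2) k) : M2 k) = rbar g :=
    ⟨rbar.toHomUnits, fun g => rfl⟩
  have hrG : ∀ g, rG g = 1 ↔ rbar g = 1 := fun g =>
    ⟨fun hg => by rw [← hrGval g, hg, Units.val_one],
      fun hg => Units.ext (by rw [hrGval g, hg, Units.val_one])⟩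
  have hlev : ∀ T, UnramOutside rbar T → ∃ U ∈ (levS T).carrier, ∀ g ∈ U, rG g = 1 := by
    intro T hT
    obtain ⟨U, hU, hU'⟩ := exists_level_of_unram rbar h.cont T hT
    exact ⟨U, hU, fun g hg => (hrG g).2 (hU' g hg)⟩
  obtain ⟨L, hfin, hnor, -, hLker, r, hr, -⟩ := exists_field_of_rbar (S := T₀) rG (hlev T₀ hT₀)
  obtain ⟨S₁, hS₁⟩ := exists_S1 L
  refine ⟨S₁, complexConjugation, complexConjugation_mul_self, hcc, fun T hS₁T hpT hurT => ?_⟩
  have hLT : L.IsUnramifiedOutside T := by
    obtain ⟨L', _, _, hL'ur, hL'ker, -⟩ := exists_field_of_rbar (S := T) rG (hlev T hurT)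
    have : L' = L := eq_of_fixingSubgroup_eq fun g => by rw [hL'ker, hLker]
    exact this ▸ hL'ur
  have hker : ∀ g ∈ L.fixingSubgroup, rbar g = 1 := fun g hg => (hrG g).1 ((hLker g).1 hg)
  have hchiK : ∀ g ∈ L.fixingSubgroup, chiK p k g = 1 := fun g hg => by
    apply Units.ext
    rw [← h.det g, hker g hg, Matrix.det_one, Units.val_one]
  have hmu : ∀ s ∈ L.fixingSubgroup, cycloChar p s = 1 := fun s hs =>
    cycloChar_eq_one_of_chiK (k := k) (hchiK s hs)
  letI : Algebra (ZMod p) k := ZMod.algebra k p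
  letI : Module (ZMod p) ↥(sl2 k) := Module.compHom _ (algebraMap (ZMod p) k)
  haveI : IsScalarTower (ZMod p) k ↥(sl2 k) := IsScalarTower.of_compHom _ _ _
  haveI : Finite ↥(sl2 k) := Module.finite_of_finite k
  haveI : Module.Finite (ZMod p) ↥(sl2 k) := Module.Finite.of_finite
  have htriv : ∀ g ∈ L.fixingSubgroup, rsRep p (adTw p rbar) g = 1 := by
    intro g hg
    ext w : 1
    rw [Fermat.Agent.CFT.rsRep_apply, adTw, Representation.twist_apply_apply, hchiK g hg,
      Units.val_one, one_smul]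
    apply Subtype.ext
    rw [adRep_apply_coe, hker g hg, hker g⁻¹ (L.fixingSubgroup.inv_mem hg), one_mul, mul_one]
    rfl
  have key := euler_char L hp2 hpT hLT hmu (hS₁ T hS₁T) r hr (rsRep p (adTw p rbar)) htriv
  have hsm : IsSmooth (levS T) (rsRep p (adTw p rbar)) :=
    Fermat.Agent.CFT.isSmooth_rsRep p (adTw_smooth h.cont T hpT hurT)
  obtain ⟨lam, Φ, w⟩ := Fermat.Agent.CFT.exists_wctx_DS hp2 T hpT
  haveI f1 : Module.Finite (ZMod p) (H1 (levS T) (rsRep p (adTw p rbar))) :=
    Fermat.Agent.CFT.finite_H1 w.ctx hsm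
  haveI f2 : Module.Finite (ZMod p) (H2 (levS T) (rsRep p (adTw p rbar))) :=
    (Fermat.Agent.CFT.finite_H2 w.ctx hsm).1
  have h0 : finrank (ZMod p) ↥(rsRep p (adTw p rbar)).invariants = 0 := by
    have : (rsRep p (adTw p rbar)).invariants = ⊥ := by
      rw [eq_bot_iff]
      intro x hx
      exact (Submodule.mem_bot _).2 (adTw_invariants hp2 h x hx)
    rw [this, finrank_bot]
  have hinv := card_neg_eigenspace hp2 (rsRep p (adTw p rbar) complexConjugation) (fun v => by
    rw [← Module.End.mul_apply, ← map_mul, complexConjugation_mul_self, map_one]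
    rfl)
  have c1 : Nat.card (H1 (levS T) (rsRep p (adTw p rbar))) =
      p ^ finrank (ZMod p) (H1 (levS T) (rsRep p (adTw p rbar))) := card_eq_pow_finrank'
  have c2 : Nat.card (H2 (levS T) (rsRep p (adTw p rbar))) =
      p ^ finrank (ZMod p) (H2 (levS T) (rsRep p (adTw p rbar))) := card_eq_pow_finrank'
  rw [← Fermat.Agent.CFT.card_H1_rsRep p, ← Fermat.Agent.CFT.card_H2_rsRep p, c1, c2]
  have hpos : 0 < p ^ finrank (ZMod p)
      ↥(LinearMap.ker (rsRep p (adTw p rbar) complexConjugation - 1)) :=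
    pow_pos (Fact.out : p.Prime).pos _
  have hset : Nat.card {w : sl2 k // adTw p rbar complexConjugation w = -w} =
      Nat.card {w : sl2 k // rsRep p (adTw p rbar) complexConjugation w = -w} := rfl
  rw [hset]
  refine le_of_eq (Nat.eq_of_mul_eq_mul_right hpos ?_)
  rw [mul_assoc, hinv, ← pow_add, ← pow_add]
  congr 1
  omega

end Fermat.Agent.S56.EC
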