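import Fermat.Agent.S56.TW.Hyp
import Fermat.Agent.CFT.W.Defs
import Fermat.Agent.S56.EC.Top.Wrap

/-!
# S56 / EC / Top : the FINAL statement of (EC) consumed by `S56/GW2.lean` (`k`-language, cardinalities).

Tate's global Euler characteristic INEQUALITY for `W' = ad⁰ρ̄(1)`:  `#H²(G_T,W') · #W'^{c=-1} ≤ #H¹(G_T,W')`  (`H⁰(G_T,W') = 0`),
for all `T ⊇ S₁ ∪ {p}` outside which `ρ̄` is unramified; `S₁` = a finite set of primes such that the places of `F₀ = ℚbar^{ker ρ̄}` over `S₁`
generate the class group of `F₀` (helper85 #1515 (c)).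
-/

set_option autoImplicit false

open ExtCitation Polynomial

namespace Fermat.Agent.S56

open CFT (levS levAll decomp Z1 B1 H1 H2 IsSmooth)

/-- **(EC)** final form.  -/
theorem exists_S1_euler_char {p : ℕ} [Fact p.Prime] (hp2 : p ≠ 2) {k : Type} [Field k] [Finite k]
    [CharP k p] {rbar : GQ →* M2 k} (h : RbarHyp p rbar) :
    ∃ (S₁ : Finset Nat.Primes) (c : GQ), c * c = 1 ∧ cycloChar p c = -1 ∧
      ∀ T : Finset Nat.Primes, S₁ ⊆ T → pPrime p ∈ T → UnramOutside rbar T →
        Nat.card (H2 (levS T) (adTw p rbar)) * Nat.card {w : sl2 k // adTw p rbar c w = -w} ≤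
          Nat.card (H1 (levS T) (adTw p rbar)) :=
  EC.top_proof hp2 h

end Fermat.Agent.S56
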